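import Mathlib
import Fermat.Agent.N4.Main
import Fermat.Agent.H09.GoodP

/-!
# The size of the `p`-torsion points in the kernel of reduction
-/

set_option autoImplicit false

namespace Fermat.Agent.H23.GR

open Polynomial WeierstrassCurve WeierstrassCurve.Affine WeierstrassCurve.Affine.Point
open Fermat.Agent.H08 Fermat.Agent.H09 Fermat.Agent.N4

section roots

variable {F : Type*} [Field F] {Γ₀ : Type*} [LinearOrderedCommGroupWithZero Γ₀]
  (v : Valuation F Γ₀)

theorem val_coeff_zero (s : Multiset F) :
    v ((s.map (fun a => X - C a)).prod.coeff 0) = (s.map v).prod := by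
  induction s using Multiset.induction_on with
  | empty => simp
  | cons y s ih =>
    simp only [Multiset.map_cons, Multiset.prod_cons]
    rw [sub_mul, coeff_sub, coeff_C_mul, coeff_X_mul_zero, zero_sub, Valuation.map_neg, map_mul,
      ih]

/-- the product of the large roots -/
theorem val_coeff_big (B C' : Multiset F) (hB : ∀ y ∈ B, 1 < v y) (hC : ∀ y ∈ C', v y ≤ 1) :
    v (((B.map (fun a => X - C a)).prod * (C'.map (fun a => X - C a)).prod).coeff
      (Multiset.card C')) = (B.map v).prod := by
  set f := (B.map (fun a => X - C a)).prod with hf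
  set g := (C'.map (fun a => X - C a)).prod with hg
  have hg1 : g.coeff (Multiset.card C') = 1 := by
    have hm : g.Monic := monic_multiset_prod_of_monic _ _ fun a _ => monic_X_sub_C a
    have hd : g.natDegree = Multiset.card C' := by
      rw [hg, natDegree_multiset_prod_X_sub_C_eq_card]
    rw [← hd]
    exact hm
  obtain ⟨h0, h1⟩ := coeff_lt_of_roots_gt v B hB
  rw [← hf] at h0 h1
  have hmem : ((0 : ℕ), Multiset.card C') ∈
      Finset.HasAntidiagonal.antidiagonal (Multiset.card C') :=
    Finset.HasAntidiagonal.mem_antidiagonal.mpr (zero_add (Multiset.card C'))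
  rw [coeff_mul, ← Finset.add_sum_erase _ _ hmem, hg1, mul_one,
    Valuation.map_add_eq_of_lt_left, hf, val_coeff_zero]
  apply Valuation.map_sum_lt _ h0
  rintro ⟨i, j⟩ hij
  rw [Finset.mem_erase, Finset.HasAntidiagonal.mem_antidiagonal] at hij
  obtain ⟨hne, hij⟩ := hij
  dsimp only at hij ⊢
  have hi : 1 ≤ i := by
    by_contra h
    have hi0 : i = 0 := by omega
    subst hi0
    rw [zero_add] at hij
    exact hne (by rw [hij])
  rw [map_mul]
  exact lt_of_le_of_lt ((mul_le_mul_right (coeff_le_one_of_roots_le v C' hC j) _).trans_eq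
    (mul_one _)) (h1 i hi)

/-- If all the coefficients are integral then the product of the roots of value `> 1` times the
leading coefficient is integral. -/
theorem val_lead_mul_le [IsAlgClosed F] {f : F[X]} (hle : ∀ j, v (f.coeff j) ≤ 1)
    (S : Finset F) (hS : ∀ a ∈ S, f.IsRoot a ∧ 1 ≤ v a) (hf0 : f ≠ 0) :
    v f.leadingCoeff * ∏ a ∈ S, v a ≤ 1 := by
  classical
  have e : f = C f.leadingCoeff * (f.roots.map (fun a => X - C a)).prod :=
    (IsAlgClosed.splits f).eq_prod_roots
  set B := f.roots.filter (fun a => 1 < v a) with hB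
  set C' := f.roots.filter (fun a => ¬ 1 < v a) with hC
  have hBC : f.roots = B + C' := (Multiset.filter_add_not _ _).symm
  have h1 := val_coeff_big v B C' (fun y hy => (Multiset.mem_filter.mp hy).2)
    (fun y hy => not_lt.mp (Multiset.mem_filter.mp hy).2)
  have h2 : v f.leadingCoeff * (B.map v).prod ≤ 1 := by
    rw [← h1, ← map_mul, ← coeff_C_mul, ← Multiset.prod_add, ← Multiset.map_add, ← hBC, ← e]
    exact hle _
  refine (mul_le_mul_right ?_ _).trans h2
  -- compare the products
  set S' := S.filter (fun a => 1 < v a) with hS'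
  have h3 : ∏ a ∈ S, v a = ∏ a ∈ S', v a := by
    rw [hS', Finset.prod_filter]
    refine Finset.prod_congr rfl fun a ha => ?_
    split_ifs with h
    · rfl
    · exact le_antisymm (not_lt.mp h) (hS a ha).2
  rw [h3]
  have h4 : S'.val ≤ B := by
    rw [Multiset.le_iff_count]
    intro a
    by_cases ha : a ∈ S'
    · rw [Multiset.count_eq_one_of_mem S'.nodup ha, Multiset.one_le_count_iff_mem, hB,
        Multiset.mem_filter, mem_roots hf0]
      rw [hS', Finset.mem_filter] at ha
      exact ⟨(hS a ha.1).1, ha.2⟩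
    · rw [Multiset.count_eq_zero_of_notMem ha]
      exact Nat.zero_le _
  obtain ⟨D, hD⟩ := Multiset.le_iff_exists_add.mp h4
  have h5 : 1 ≤ (D.map v).prod := by
    apply Multiset.one_le_prod
    intro y hy
    obtain ⟨a, ha, rfl⟩ := Multiset.mem_map.mp hy
    have : a ∈ B := by rw [hD]; exact Multiset.mem_add.mpr (Or.inr ha)
    exact (Multiset.mem_filter.mp this).2.le
  rw [hD, Multiset.map_add, Multiset.prod_add]
  exact le_mul_of_one_le_right' h5

end roots

section curve

variable {F : Type*} [Field F] [CharZero F] [IsAlgClosed F] [DecidableEq F]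
  {A : ValuationSubring F}

/-- A nonzero `p`-torsion point in the kernel of reduction is not too close to `0`. -/
theorem val_px_pow_le {W : WeierstrassCurve.Affine F} {W₁ : WeierstrassCurve ℤ}
    (hW₁ : W₁.map (Int.castRingHom F) = W) {p : ℕ} (hp : p.Prime) (hp2 : p ≠ 2)
    (hA : A.LiesOverPrime p) {T : W.Point} (hT0 : T ≠ 0) (hT : 1 < A.valuation (px T))
    (hpT : p • T = 0) :
    A.valuation (px T) ^ ((p - 1) / 2) * A.valuation (p : F) ≤ 1 := by
  classical
  have hodd : Odd p := hp.odd_of_ne_two hp2
  have hW : IsIntegralFor A.valuation W := isIntegralFor_of_int hW₁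
  have hpF : (p : F) ≠ 0 := Nat.cast_ne_zero.mpr hp.ne_zero
  set f := W.preΨ' p with hf
  have hf0 : f ≠ 0 := W.preΨ'_ne_zero hpF
  have hle : ∀ j, A.valuation (f.coeff j) ≤ 1 := by
    intro j
    have hc : f.coeff j = (((W₁.preΨ' p).coeff j : ℤ) : F) := by
      rw [hf, ← hW₁, map_preΨ', coeff_map]; rfl
    rw [hc]
    exact v_intCast_le_one _ _
  have hlead : f.leadingCoeff = p := by
    rw [hf, WeierstrassCurve.leadingCoeff_preΨ' _ hpF, if_neg (Nat.not_even_iff_odd.mpr hodd)]
  -- the multiples of `T`
  have hcop : ∀ n : ℕ, ¬ p ∣ n → A.valuation (n : F) = 1 := by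
    intro n hn
    have := val_intCast_eq_one (c := (n : ℤ)) hp hA (by exact_mod_cast hn)
    exact_mod_cast this
  have hmul : ∀ n : ℕ, ¬ p ∣ n → n • T ≠ 0 ∧ A.valuation (px (n • T)) = A.valuation (px T) :=
    fun n hn => px_nsmul_val hW hT (hcop n hn)
  obtain ⟨m, hm⟩ := hodd
  have hhalf : (p - 1) / 2 = m := by omega
  set S : Finset F := (Finset.Icc 1 m).image (fun n => px (n • T)) with hS
  have hnd : ∀ n ∈ Finset.Icc 1 m, ¬ p ∣ n := by
    intro n hn hd
    rw [Finset.mem_Icc] at hn
    have := Nat.le_of_dvd (by omega) hd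
    omega
  have hinj : Set.InjOn (fun n : ℕ => px (n • T)) (Finset.Icc 1 m : Finset ℕ) := by
    intro a ha b hb hab
    rw [Finset.mem_coe] at ha hb
    have ha' := hnd a ha
    have hb' := hnd b hb
    rw [Finset.mem_Icc] at ha hb
    -- the order of `T` is `p`
    have key : ∀ k : ℤ, k • T = 0 → (p : ℤ) ∣ k := by
      intro k hk
      by_contra hnk
      obtain ⟨x, y, hxy⟩ := ((Nat.prime_iff_prime_int.mp hp).coprime_iff_not_dvd.mpr hnk)
      apply hT0
      calc T = (x * p + y * k) • T := by rw [hxy, one_smul]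
        _ = 0 := by
          rw [add_smul, mul_smul, mul_smul, hk, natCast_zsmul, hpT, smul_zero, smul_zero, add_zero]
    rcases (px_eq_iff (hmul a ha').1 (hmul b hb').1).mp hab with h | h
    · have h1 : ((a : ℤ) - b) • T = 0 := by
        rw [sub_smul, natCast_zsmul, natCast_zsmul, h, sub_self]
      have h2 := key _ h1
      have h3 : (a : ℤ) - b = 0 := by
        apply Int.eq_zero_of_abs_lt_dvd h2
        rw [abs_lt]
        constructor <;> omega
      omega
    · have h1 : ((a : ℤ) + b) • T = 0 := by
        rw [add_smul, natCast_zsmul, natCast_zsmul, h, neg_add_cancel]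
      have h2 := key _ h1
      have := Int.le_of_dvd (by omega) h2
      omega
  have hprod : ∏ a ∈ S, A.valuation a = A.valuation (px T) ^ m := by
    rw [hS, Finset.prod_image hinj, Finset.prod_congr rfl fun n hn => (hmul n (hnd n hn)).2,
      Finset.prod_const, Nat.card_Icc, Nat.add_sub_cancel]
  have h1 := val_lead_mul_le A.valuation hle S (by
    intro a ha
    obtain ⟨n, hn, rfl⟩ := Finset.mem_image.mp ha
    obtain ⟨h2, h3⟩ := hmul n (hnd n hn)
    refine ⟨?_, ?_⟩
    · have h4 : p • (n • T) = 0 := by rw [← mul_smul, mul_comm, mul_smul, hpT, smul_zero]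
      rw [smul_eq_zero_iff_eval h2 ⟨m, hm⟩, xc_eq_px] at h4
      exact h4
    · rw [h3]; exact hT.le) hf0
  rw [hlead, hprod] at h1
  rw [hhalf, mul_comm]
  exact h1

end curve

end Fermat.Agent.H23.GR
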