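import Mathlib
import Fermat.Agent.N4.FormalTors

/-!
# Lagrange resolvents of an extension of `ℤ/p` by `μ_p` (good reduction at `p`)
-/

set_option autoImplicit false

namespace Fermat.Agent.H23.GR

open Finset
open Fermat.Agent.N4 Fermat.Agent.H08

section

variable {L : Type*} [Field L] {Γ₀ : Type*} [LinearOrderedCommGroupWithZero Γ₀]
  {v : Valuation L Γ₀} {p : ℕ} {ζ : L}

/-- `ζ ^ k` for `k : ZMod p` -/
def ez (ζ : L) (k : ZMod p) : L := ζ ^ k.val

variable [hp : Fact p.Prime]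

theorem ez_eq (hζ : ζ ^ p = 1) {k : ZMod p} {n : ℕ} (h : k = n) : ez ζ k = ζ ^ n := by
  subst h
  rw [ez, ZMod.val_natCast, ← pow_eq_pow_mod n hζ]

theorem ez_add (hζ : ζ ^ p = 1) (a b : ZMod p) : ez ζ (a + b) = ez ζ a * ez ζ b := by
  rw [ez_eq hζ (k := a + b) (n := a.val + b.val) (by simp), pow_add]
  rfl

theorem ez_zero : ez ζ (0 : ZMod p) = 1 := by
  rw [ez, ZMod.val_zero, pow_zero]

theorem ez_one : ez ζ (1 : ZMod p) = ζ := by
  rw [ez, ZMod.val_one, pow_one]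

theorem ez_pow (hζ : ζ ^ p = 1) (a : ZMod p) (n : ℕ) :
    ez ζ a ^ n = ez ζ ((n : ZMod p) * a) := by
  rw [ez_eq hζ (k := (n : ZMod p) * a) (n := n * a.val) (by simp), mul_comm n, pow_mul]
  rfl

theorem ez_pow_p (hζ : ζ ^ p = 1) (a : ZMod p) : ez ζ a ^ p = 1 := by
  rw [ez_pow hζ]
  simp [ez_zero]

theorem ez_ne_zero (hζ : ζ ^ p = 1) (a : ZMod p) : ez ζ a ≠ 0 := by
  intro h
  have := ez_pow_p hζ a
  rw [h, zero_pow hp.out.ne_zero] at this
  exact zero_ne_one this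

theorem ez_neg_mul (hζ : ζ ^ p = 1) (a : ZMod p) : ez ζ (-a) * ez ζ a = 1 := by
  rw [← ez_add hζ, neg_add_cancel, ez_zero]

theorem ez_eq_one_iff (hζ : IsPrimitiveRoot ζ p) (a : ZMod p) : ez ζ a = 1 ↔ a = 0 := by
  rw [ez, hζ.pow_eq_one_iff_dvd, ← ZMod.natCast_eq_zero_iff, ZMod.natCast_zmod_val]

theorem ez_sum (hζ : IsPrimitiveRoot ζ p) {a : ZMod p} (ha : a ≠ 0) :
    ∑ i : ZMod p, ez ζ (i * a) = 0 := by
  have h1 : ez ζ a * ∑ i : ZMod p, ez ζ (i * a) = ∑ i : ZMod p, ez ζ (i * a) := by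
    rw [Finset.mul_sum, ← Equiv.sum_comp (Equiv.addRight (1 : ZMod p)) (fun i => ez ζ (i * a))]
    refine Finset.sum_congr rfl fun i _ => ?_
    rw [Equiv.coe_addRight, add_mul, one_mul, ez_add hζ.pow_eq_one, mul_comm]
  have h2 : (ez ζ a - 1) * ∑ i : ZMod p, ez ζ (i * a) = 0 := by
    rw [sub_mul, h1, one_mul, sub_self]
  rcases mul_eq_zero.mp h2 with h | h
  · exact absurd ((ez_eq_one_iff hζ a).mp (sub_eq_zero.mp h)) ha
  · exact h

/-- the resolvents -/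
def A (ζ : L) (z : ZMod p → L) (i : ZMod p) : L := ∑ j : ZMod p, ez ζ (-(i * j)) * z j

theorem sum_A (hζ : IsPrimitiveRoot ζ p) (z : ZMod p → L) (j : ZMod p) :
    ∑ i : ZMod p, ez ζ (i * j) * A ζ z i = p * z j := by
  have h1 : ∀ i : ZMod p, ez ζ (i * j) * A ζ z i =
      ∑ k : ZMod p, ez ζ (i * (j - k)) * z k := by
    intro i
    rw [A, Finset.mul_sum]
    refine Finset.sum_congr rfl fun k _ => ?_
    rw [← mul_assoc, ← ez_add hζ.pow_eq_one]
    congr 2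
    ring
  rw [Finset.sum_congr rfl fun i _ => h1 i, Finset.sum_comm]
  rw [Finset.sum_eq_single j]
  · rw [← Finset.sum_mul]
    congr 1
    simp [ez_zero]
  · intro k _ hk
    rw [← Finset.sum_mul, ez_sum hζ (sub_ne_zero.mpr (Ne.symm hk)), zero_mul]
  · intro h
    exact absurd (Finset.mem_univ _) h

theorem map_ez {K : Type*} [Field K] [Algebra K L] (hζ : ζ ^ p = 1) (σ : L ≃ₐ[K] L) {c : ZMod p}
    (hc : σ ζ = ez ζ c) (a : ZMod p) : σ (ez ζ a) = ez ζ (c * a) := by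
  rw [ez, map_pow, hc, ez_pow hζ, ZMod.natCast_zmod_val, mul_comm]

theorem map_A {K : Type*} [Field K] [Algebra K L] (hζ : IsPrimitiveRoot ζ p) (σ : L ≃ₐ[K] L)
    {b c : ZMod p} (hc : σ ζ = ez ζ c) {z : ZMod p → L} (hz : ∀ j, σ (z j) = z (b + c * j))
    (i : ZMod p) : σ (A ζ z i) = ez ζ (i * b) * A ζ z i := by
  have hc0 : c ≠ 0 := by
    rintro rfl
    rw [ez_zero] at hc
    have h1 : σ ζ = σ 1 := by rw [hc, map_one]
    exact hζ.ne_one hp.out.one_lt (σ.injective h1)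
  rw [A, map_sum, Finset.mul_sum]
  let e : ZMod p ≃ ZMod p := (Equiv.mulLeft₀ c hc0).trans (Equiv.addLeft b)
  rw [← Equiv.sum_comp e (fun j => ez ζ (i * b) * (ez ζ (-(i * j)) * z j))]
  refine Finset.sum_congr rfl fun j _ => ?_
  have he : e j = b + c * j := rfl
  rw [map_mul, hz, map_ez hζ.pow_eq_one σ hc, he, ← mul_assoc, ← ez_add hζ.pow_eq_one]
  congr 2
  ring

end

section main

variable {K L : Type*} [Field K] [Field L] [Algebra K L] {Γ₀ : Type*}
  [LinearOrderedCommGroupWithZero Γ₀] {v : Valuation L Γ₀} {p : ℕ} {ζ : L} [hp : Fact p.Prime]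

/-- if the values of the nonzero terms are pairwise distinct then each term is bounded by the
sum -/
theorem le_of_distinct {ι : Type*} [Fintype ι] [DecidableEq ι] (a : ι → L)
    (h : ∀ i j, i ≠ j → a i ≠ 0 → v (a i) ≠ v (a j)) (i : ι) : v (a i) ≤ v (∑ j, a j) := by
  obtain ⟨m, -, hm⟩ := Finset.exists_max_image (Finset.univ : Finset ι) (fun j => v (a j))
    ⟨i, Finset.mem_univ _⟩
  by_cases h0 : a m = 0
  · have : v (a i) ≤ v (a m) := hm i (Finset.mem_univ _)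
    rw [h0, map_zero] at this
    exact this.trans zero_le
  · have h1 : v (∑ j, a j) = v (a m) := by
      rw [← Finset.add_sum_erase _ _ (Finset.mem_univ m)]
      apply Valuation.map_add_eq_of_lt_left
      apply Valuation.map_sum_lt _ ((Valuation.ne_zero_iff v).mpr h0)
      intro j hj
      exact lt_of_le_of_ne (hm j (Finset.mem_univ _))
        (fun h2 => h m j (Finset.ne_of_mem_erase hj).symm h0 h2.symm)
    rw [h1]
    exact hm i (Finset.mem_univ _)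

theorem resolvent (hζ : IsPrimitiveRoot ζ p) (hp1 : v (p : L) < 1)
    (hp0 : (p : L) ≠ 0)
    {I : Set (L ≃ₐ[K] L)}
    (hI : ∀ c : L, c ≠ 0 → (∀ σ ∈ I, σ c = c) → ∃ n : ℤ, v c = v (p : L) ^ n)
    {z : ZMod p → L} (hz0 : v (z 0) ≤ 1) (hz1 : v (ζ - 1) ≤ v (z 1 - z (-1)))
    (hσ : ∀ σ ∈ I, ∃ b c : ZMod p, σ ζ = ez ζ c ∧ ∀ j, σ (z j) = z (b + c * j)) :
    ∃ u : L, u ≠ 0 ∧ (∃ n : ℤ, v (u ^ p) = v (p : L) ^ ((p : ℤ) * n)) ∧
      ∀ σ ∈ I, ∀ b c : ZMod p, σ ζ = ez ζ c → (∀ j, σ (z j) = z (b + c * j)) →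
        σ u = ez ζ b * u := by
  classical
  have hζ1 := hζ.pow_eq_one
  have hv0 : v (p : L) ≠ 0 := (Valuation.ne_zero_iff v).mpr hp0
  have hvpos : 0 < v (p : L) := zero_lt_iff.mpr hv0
  have hzinj : ∀ a b : ℤ, v (p : L) ^ a = v (p : L) ^ b → a = b := by
    intro a b h
    rcases lt_trichotomy a b with h1 | h1 | h1
    · exact absurd h (zpow_lt_zpow_right_of_lt_one₀ hvpos hp1 h1).ne'
    · exact h1
    · exact absurd h (zpow_lt_zpow_right_of_lt_one₀ hvpos hp1 h1).ne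
  have hζ0 : 0 < v (ζ - 1) := by
    rw [zero_lt_iff, Valuation.ne_zero_iff, sub_ne_zero]
    exact hζ.ne_one hp.out.one_lt
  -- the difference in terms of the resolvents
  have hdiff : (p : L) * (z 1 - z (-1)) =
      ∑ i : ZMod p, (ez ζ i - ez ζ (-i)) * A ζ z i := by
    rw [mul_sub, ← sum_A hζ z 1, ← sum_A hζ z (-1), ← Finset.sum_sub_distrib]
    refine Finset.sum_congr rfl fun i _ => ?_
    rw [mul_one, mul_neg_one, sub_mul]
  -- a nonzero resolvent
  obtain ⟨i₀, hi₀, hA₀⟩ : ∃ i₀ : ZMod p, i₀ ≠ 0 ∧ A ζ z i₀ ≠ 0 := by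
    by_contra hcon
    push Not at hcon
    have h1 : (p : L) * (z 1 - z (-1)) = 0 := by
      rw [hdiff]
      refine Finset.sum_eq_zero fun i _ => ?_
      by_cases hi : i = 0
      · rw [hi, neg_zero, sub_self, zero_mul]
      · rw [hcon i hi, mul_zero]
    have h2 : z 1 - z (-1) = 0 := (mul_eq_zero.mp h1).resolve_left hp0
    rw [h2, map_zero] at hz1
    exact absurd hz1 (not_le.mpr hζ0)
  set u : L := A ζ z i₀ ^ (i₀⁻¹).val with hu
  have hu0 : u ≠ 0 := pow_ne_zero _ hA₀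
  have huσ : ∀ σ ∈ I, ∀ b c : ZMod p, σ ζ = ez ζ c → (∀ j, σ (z j) = z (b + c * j)) →
      σ u = ez ζ b * u := by
    intro σ _ b c hc hz
    rw [hu, map_pow, map_A hζ σ hc hz, mul_pow, ez_pow hζ1, ZMod.natCast_zmod_val, ← mul_assoc,
      inv_mul_cancel₀ hi₀, one_mul]
  have hup : ∀ σ ∈ I, σ (u ^ p) = u ^ p := by
    intro σ hσI
    obtain ⟨b, c, hc, hz⟩ := hσ σ hσI
    rw [map_pow, huσ σ hσI b c hc hz, mul_pow, ez_pow_p hζ1, one_mul]
  obtain ⟨m, hm⟩ := hI (u ^ p) (pow_ne_zero _ hu0) hup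
  by_cases hpm : (p : ℤ) ∣ m
  · obtain ⟨n, rfl⟩ := hpm
    exact ⟨u, hu0, ⟨n, hm⟩, huσ⟩
  exfalso
  -- the values of the resolvents
  have hval : ∀ i : ZMod p, A ζ z i ≠ 0 →
      ∃ n : ℤ, v (A ζ z i) ^ p = v (p : L) ^ ((p : ℤ) * n + i.val * m) := by
    intro i hi
    obtain ⟨n, hn⟩ := hI (A ζ z i / u ^ i.val) (div_ne_zero hi (pow_ne_zero _ hu0)) (by
      intro σ hσI
      obtain ⟨b, c, hc, hz⟩ := hσ σ hσI
      rw [map_div₀, map_pow, huσ σ hσI b c hc hz, map_A hζ σ hc hz, mul_pow, ez_pow hζ1,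
        ZMod.natCast_zmod_val, mul_div_mul_left _ _ (ez_ne_zero hζ1 _)])
    refine ⟨n, ?_⟩
    have h1 : v (A ζ z i) = v (p : L) ^ n * v u ^ i.val := by
      rw [map_div₀, map_pow, div_eq_iff (pow_ne_zero _ ((Valuation.ne_zero_iff v).mpr hu0))] at hn
      exact hn
    rw [map_pow] at hm
    rw [h1, mul_pow, ← pow_mul, mul_comm i.val, pow_mul, hm, zpow_add₀ hv0, ← zpow_natCast,
      ← zpow_mul, mul_comm n, ← zpow_natCast, ← zpow_mul, mul_comm m]
  have hdist : ∀ i j : ZMod p, i ≠ j → A ζ z i ≠ 0 → v (A ζ z i) ≠ v (A ζ z j) := by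
    intro i j hij hi heq
    have hj : A ζ z j ≠ 0 := by
      rw [← Valuation.ne_zero_iff v, ← heq]
      exact (Valuation.ne_zero_iff v).mpr hi
    obtain ⟨n, hn⟩ := hval i hi
    obtain ⟨n', hn'⟩ := hval j hj
    rw [heq, hn'] at hn
    have h1 := hzinj _ _ hn
    have h2 : (p : ℤ) ∣ (i.val - j.val : ℤ) * m := ⟨n' - n, by linear_combination -h1⟩
    rcases (Nat.prime_iff_prime_int.mp hp.out).dvd_or_dvd h2 with h3 | h3
    · apply hij
      have h4 : ((i.val : ℤ) : ZMod p) = ((j.val : ℤ) : ZMod p) := by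
        rw [← sub_eq_zero, ← Int.cast_sub]
        exact (ZMod.intCast_zmod_eq_zero_iff_dvd _ _).mpr h3
      simpa using h4
    · exact hpm h3
  have hsum0 : ∑ i : ZMod p, A ζ z i = p * z 0 := by
    rw [← sum_A hζ z 0]
    refine Finset.sum_congr rfl fun i _ => ?_
    rw [mul_zero, ez_zero, one_mul]
  have hle : ∀ i : ZMod p, v (A ζ z i) ≤ v (p : L) := by
    intro i
    refine (le_of_distinct (A ζ z) hdist i).trans ?_
    rw [hsum0, map_mul]
    exact mul_le_of_le_one_right' hz0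
  have hlt : ∀ i : ZMod p, i ≠ 0 → v (A ζ z i) < v (p : L) := by
    intro i hi
    refine lt_of_le_of_ne (hle i) fun heq => ?_
    have hi0 : A ζ z i ≠ 0 := by
      rw [← Valuation.ne_zero_iff v, heq]
      exact hv0
    obtain ⟨n, hn⟩ := hval i hi0
    rw [heq, ← zpow_natCast] at hn
    have h1 := hzinj _ _ hn
    have h2 : (p : ℤ) ∣ (i.val : ℤ) * m := ⟨1 - n, by linear_combination -h1⟩
    rcases (Nat.prime_iff_prime_int.mp hp.out).dvd_or_dvd h2 with h3 | h3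
    · apply hi
      have h4 : ((i.val : ℤ) : ZMod p) = 0 := (ZMod.intCast_zmod_eq_zero_iff_dvd _ _).mpr h3
      simpa using h4
    · exact hpm h3
  have hez : ∀ i : ZMod p, v (ez ζ i - ez ζ (-i)) ≤ v (ζ - 1) := by
    intro i
    have h1 : ez ζ i - ez ζ (-i) = ez ζ (-i) * (ez ζ (i + i) - 1) := by
      rw [ez_add hζ1, mul_sub, mul_one, ← mul_assoc, ez_neg_mul hζ1, one_mul]
    have h2 : v (ez ζ (-i)) = 1 := val_root hp.out.ne_zero (ez_pow_p hζ1 _)
    rw [h1, map_mul, h2, one_mul]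
    exact val_pow_sub_one_le (val_root hp.out.ne_zero hζ1).le _
  have hfin : v ((p : L) * (z 1 - z (-1))) < v (p : L) * v (ζ - 1) := by
    rw [hdiff]
    apply Valuation.map_sum_lt _ (mul_ne_zero hv0 hζ0.ne')
    intro i _
    rw [map_mul]
    by_cases hi : i = 0
    · rw [hi, neg_zero, sub_self, map_zero, zero_mul]
      exact mul_pos hvpos hζ0
    · rw [mul_comm]
      exact lt_of_le_of_lt (mul_le_mul_right (hez i) _)
        (mul_lt_mul_of_pos_right (hlt i hi) hζ0)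
  rw [map_mul] at hfin
  exact absurd (mul_le_mul_right hz1 (v (p : L))) (not_le.mpr hfin)

end main

end Fermat.Agent.H23.GR
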