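import Mathlib
import Fermat.Agent.H23.GR.Res
import Fermat.Agent.H23.GR.Big
import Fermat.Agent.N4.Main
import Fermat.Agent.H09.GoodP

/-!
# Ordinary good reduction at `p`: the extension of inertia modules is peu ramifiée
-/

set_option autoImplicit false

namespace Fermat.Agent.H23.GR

open WeierstrassCurve WeierstrassCurve.Affine WeierstrassCurve.Affine.Point
open Fermat.Agent.H08 Fermat.Agent.N4
open Fermat.Agent.H09 hiding psi2 psi2_sq val_intCast_eq_one

section diff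

universe u w

variable {F : Type u} [Field F] [DecidableEq F] {W : WeierstrassCurve.Affine F}

/-- the square of `x(P+Q) - x(P-Q)` -/
theorem px_add_sub_diff {P Q : W.Point} (hP : P ≠ 0) (hQ : Q ≠ 0) (hPQ : px P ≠ px Q) :
    (px (P + Q) - px (P - Q)) ^ 2 * (px P - px Q) ^ 4 = psi2 P ^ 2 * psi2 Q ^ 2 := by
  have h1 := px_add_sub_sum hP hQ hPQ
  have h2 := px_add_sub_prod hP hQ hPQ
  rw [psi2_sq hP, psi2_sq hQ]
  have e : (px (P + Q) - px (P - Q)) ^ 2 * (px P - px Q) ^ 4 =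
      ((px (P + Q) + px (P - Q)) * (px P - px Q) ^ 2) ^ 2 -
        4 * ((px (P + Q) * px (P - Q)) * (px P - px Q) ^ 2) * (px P - px Q) ^ 2 := by ring
  rw [e, h1, h2]
  simp only [b₂, b₄, b₆, b₈]
  ring

variable {Γ₀ : Type w} [LinearOrderedCommGroupWithZero Γ₀] {v : Valuation F Γ₀}

/-- a torsion point of odd order outside the kernel of reduction does not reduce to a point of
order two -/
theorem val_psi2_eq_one (hW : IsIntegralFor v W) (hΔ : v W.Δ = 1) {p : ℕ} (hodd : Odd p)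
    {X : W.Point} (hX : ¬ InE1 v X) (hpX : p • X = 0) : v (psi2 X) = 1 := by
  have hX0 : X ≠ 0 := fun h => hX (Or.inl h)
  have hXx : v (px X) ≤ 1 := not_lt.mp fun h => hX (Or.inr h)
  have hXy := val_py_le_one hW hXx
  have hle : v (psi2 X) ≤ 1 := by
    unfold psi2
    exact v_add_le_one (v_add_le_one (v_mul_le_one (v_ofNat_le_one v 2) hXy)
      (v_mul_le_one hW.h₁ hXx)) hW.h₃
  refine le_antisymm hle (not_lt.mp fun hlt => hX ?_)
  have h1 : InE1 v (X - -X) := by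
    refine inE1_sub_of_congr hW hX0 (neg_ne_zero.mpr hX0) hXx ?_ ?_
      (nonsingularRed_of_Δ hW hΔ hX0 hXx)
    · rw [px_neg, sub_self, _root_.map_zero]; exact zero_lt_one
    · have e : py X - py (-X) = psi2 X := by
        rw [py_neg hX0, psi2]; ring
      rw [e]; exact hlt
  obtain ⟨m, hm⟩ := hodd
  have h2 : X = (m + 1) • (X - -X) := by
    rw [sub_neg_eq_add, ← two_nsmul, ← mul_smul, show (m + 1) * 2 = p + 1 by omega, succ_nsmul,
      hpX, zero_add]
  rw [h2]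
  exact (E1 v W hW).nsmul_mem (show X - -X ∈ E1 v W hW from h1) _

/-- `ψ₂²` in the kernel of reduction -/
theorem val_psi2_sq_E1 (hW : IsIntegralFor v W) (h2 : v (2 : F) = 1) {T : W.Point} (hT0 : T ≠ 0)
    (hT : 1 < v (px T)) : v (psi2 T ^ 2) = v (px T) ^ 3 := by
  have h4 : v (4 : F) = 1 := by
    rw [show (4 : F) = 2 * 2 by norm_num, map_mul, h2, one_mul]
  have hT2 : v (px T) ^ 2 < v (px T) ^ 3 := pow_lt_pow_right₀ hT (by norm_num)
  have ha : v (4 * px T ^ 3) = v (px T) ^ 3 := by rw [map_mul, h4, one_mul, map_pow]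
  have e : psi2 T ^ 2 = 4 * px T ^ 3 + (W.b₂ * px T ^ 2 + 2 * W.b₄ * px T + W.b₆) := by
    rw [psi2_sq hT0]; ring
  have h1 : v (W.b₂ * px T ^ 2 + 2 * W.b₄ * px T + W.b₆) ≤ v (px T) ^ 2 := by
    have hone : 1 ≤ v (px T) ^ 2 := one_le_pow₀ hT.le
    refine (Valuation.map_add _ _ _).trans (max_le ((Valuation.map_add _ _ _).trans
      (max_le ?_ ?_)) ?_)
    · rw [map_mul, map_pow]
      exact mul_le_of_le_one_left' hW.b₂
    · rw [map_mul, map_mul, h2, one_mul, pow_two]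
      exact mul_le_mul' (hW.b₄.trans hT.le) le_rfl
    · exact hW.b₆.trans hone
  rw [e, Valuation.map_add_eq_of_lt_left, ha]
  rw [ha]
  exact h1.trans_lt hT2

/-- the distance between the two translates -/
theorem val_diff_sq (hW : IsIntegralFor v W) (h2 : v (2 : F) = 1) {X T : W.Point}
    (hX0 : X ≠ 0) (hXx : v (px X) ≤ 1) (hψ : v (psi2 X) = 1) (hT0 : T ≠ 0)
    (hT : 1 < v (px T)) : v (px (X + T) - px (X - T)) ^ 2 * v (px T) = 1 := by
  have hne : px X ≠ px T := fun h => by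
    rw [h] at hXx
    exact absurd hT (not_lt.mpr hXx)
  have hd : v (px X - px T) = v (px T) := by
    rw [sub_eq_add_neg, Valuation.map_add_eq_of_lt_right, Valuation.map_neg]
    rw [Valuation.map_neg]
    exact hXx.trans_lt hT
  have h := congrArg v (px_add_sub_diff hX0 hT0 hne)
  rw [map_mul, map_pow, map_pow, map_mul, map_pow, hψ, one_pow, one_mul, hd,
    val_psi2_sq_E1 hW h2 hT0 hT] at h
  have ht0 : v (px T) ≠ 0 := (zero_lt_one.trans hT).ne'
  have h3 : v (px (X + T) - px (X - T)) ^ 2 * v (px T) * v (px T) ^ 3 = 1 * v (px T) ^ 3 := by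
    rw [one_mul, mul_assoc, ← pow_succ']
    exact h
  exact mul_right_cancel₀ (pow_ne_zero 3 ht0) h3

omit [DecidableEq F] in
/-- comparison with `ζ - 1` -/
theorem val_zeta_le {p : ℕ} (hp : p.Prime) (hp2 : p ≠ 2) {ζ : F} (hζ : IsPrimitiveRoot ζ p)
    {d t : Γ₀} (hdt : d ^ 2 * t = 1) (ht : t ^ ((p - 1) / 2) * v (p : F) ≤ 1) :
    v (ζ - 1) ≤ d := by
  by_contra hcon
  push Not at hcon
  have hodd := hp.odd_of_ne_two hp2
  obtain ⟨m, hm⟩ := hodd
  have hm0 : m ≠ 0 := by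
    rintro rfl
    have := hp.two_le
    omega
  have e1 : (p - 1) / 2 = m := by omega
  have e2 : p - 1 = 2 * m := by omega
  have ht0 : t ≠ 0 := by
    rintro rfl
    rw [mul_zero] at hdt
    exact zero_ne_one hdt
  have h1 := val_zeta_pow (v := v) hp hζ
  rw [e2] at h1
  have h2 : d ^ (2 * m) < v (ζ - 1) ^ (2 * m) := pow_lt_pow_left₀ hcon zero_le (by omega)
  rw [h1] at h2
  have h3 : d ^ (2 * m) * t ^ m = 1 := by
    rw [pow_mul, ← mul_pow, hdt, one_pow]
  rw [e1, mul_comm] at ht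
  have h4 : d ^ (2 * m) * t ^ m < v (p : F) * t ^ m :=
    mul_lt_mul_of_pos_right h2 (zero_lt_iff.mpr (pow_ne_zero _ ht0))
  rw [h3] at h4
  exact absurd h4 (not_lt.mpr ht)

end diff

section main

variable {L : Type*} [Field L] [DecidableEq L] [CharZero L] [Algebra.IsAlgebraic ℚ L]
  [IsAlgClosed L] {W₀ : WeierstrassCurve.Affine ℚ} {A : ValuationSubring L}
  {p : ℕ} [hp : Fact p.Prime] {ζ : L}

omit [Algebra.IsAlgebraic ℚ L] [IsAlgClosed L] in
theorem nsmul_congr {T : (W₀⁄L).Point} (hpT : p • T = 0) {m n : ℕ} (h : (m : ZMod p) = n) :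
    m • T = n • T := by
  rw [ZMod.natCast_eq_natCast_iff'] at h
  rw [← Nat.mod_add_div m p, ← Nat.mod_add_div n p, h, add_smul, add_smul, mul_comm p,
    mul_comm p, mul_smul, mul_smul, hpT, smul_zero, smul_zero]

/-- a line on which inertia acts by the cyclotomic character is in the kernel of reduction -/
theorem inE1_of_cyc (hW : IsIntegralFor A.valuation (W₀⁄L)) (hΔ : A.valuation (W₀⁄L).Δ = 1)
    (hp2 : p ≠ 2) (hA : A.LiesOverPrime p) (hζ : IsPrimitiveRoot ζ p) {T : (W₀⁄L).Point}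
    (hpT : p • T = 0)
    (hTσ : ∀ σ ∈ A.inertiaSubgroupIn ℚ, ∀ b : ℕ, σ ζ = ζ ^ b → σ • T = b • T) :
    InE1 A.valuation T := by
  have R : ResP A.valuation p ζ := ⟨hp.out, hp2, val_natCast_lt_one hA, hζ⟩
  obtain ⟨σ, hσ, hne⟩ := exists_inertia_ne R hA
  have hz : (σ ζ) ^ p = 1 := by rw [← map_pow, R.hζ.pow_eq_one, map_one]
  have : NeZero p := ⟨R.hp.ne_zero⟩
  obtain ⟨m, hmlt, hm⟩ := R.hζ.eq_pow_of_pow_eq_one hz
  have h1 := hTσ σ hσ m hm.symm
  have h2 := inE1_smul_sub_of_good hW hΔ hσ T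
  have h3 : σ • T - T = ((m : ℤ) - 1) • T := by
    rw [h1, sub_smul, one_smul, natCast_zsmul]
  rw [h3] at h2
  have hcop : IsCoprime (p : ℤ) ((m : ℤ) - 1) := by
    rw [(Nat.prime_iff_prime_int.mp R.hp).irreducible.coprime_iff_not_dvd]
    intro hd
    have h4 : (m : ℤ) - 1 = 0 := by
      apply Int.eq_zero_of_abs_lt_dvd hd
      rw [abs_lt]
      have := R.hp.two_le
      constructor <;> omega
    apply hne
    rw [← hm, show m = 1 by omega, pow_one]
  obtain ⟨a, b, hab⟩ := hcop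
  have h5 : T = b • (((m : ℤ) - 1) • T) := by
    calc T = (a * p + b * ((m : ℤ) - 1)) • T := by rw [hab, one_smul]
      _ = b • (((m : ℤ) - 1) • T) := by
        rw [add_smul, mul_smul, natCast_zsmul, hpT, smul_zero, zero_add, mul_smul]
  rw [h5]
  exact (E1 A.valuation (W₀⁄L) hW).zsmul_mem
    (show ((m : ℤ) - 1) • T ∈ E1 A.valuation (W₀⁄L) hW from h2) b

/-- **Ordinary good reduction at `p`**: the Kummer generator. -/
theorem exists_kummer_ord {W₁ : WeierstrassCurve ℤ}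
    (hW₁ : W₁.map (Int.castRingHom L) = (W₀⁄L)) (hΔ : A.valuation (W₀⁄L).Δ = 1)
    (hp2 : p ≠ 2) (hA : A.LiesOverPrime p) (hζ : IsPrimitiveRoot ζ p) {T X : (W₀⁄L).Point}
    (hT0 : T ≠ 0) (hpT : p • T = 0) (hpX : p • X = 0) (hX : ¬ InE1 A.valuation X)
    (hTσ : ∀ σ ∈ A.inertiaSubgroupIn ℚ, ∀ b : ℕ, σ ζ = ζ ^ b → σ • T = b • T)
    (hXσ : ∀ σ ∈ A.inertiaSubgroupIn ℚ, ∃ b : ℕ, σ • X = X + b • T) :
    ∃ u : L, u ≠ 0 ∧ (∃ n : ℤ, A.valuation (u ^ p) = A.valuation (p : L) ^ ((p : ℤ) * n)) ∧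
      ∀ σ ∈ A.inertiaSubgroupIn ℚ, ∀ b : ℕ, σ • X = X + b • T → σ u = ζ ^ b * u := by
  classical
  have : IsGalois ℚ L := { to_normal := { splits' := fun x => IsAlgClosed.splits _ } }
  have : NeZero p := ⟨hp.out.ne_zero⟩
  have hW : IsIntegralFor A.valuation (W₀⁄L) := isIntegralFor_of_int hW₁
  have hodd : Odd p := hp.out.odd_of_ne_two hp2
  have hp0 : (p : L) ≠ 0 := Nat.cast_ne_zero.mpr hp.out.ne_zero
  have hp1 : A.valuation (p : L) < 1 := val_natCast_lt_one hA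
  have h2 : A.valuation (2 : L) = 1 := by
    have := Fermat.Agent.H09.val_intCast_eq_one (L := L) (c := 2) hp.out hA (by
      intro h
      have h' : p ∣ 2 := by exact_mod_cast h
      exact hp2 ((Nat.prime_dvd_prime_iff_eq hp.out Nat.prime_two).mp h'))
    exact_mod_cast this
  have hX0 : X ≠ 0 := fun h => hX (Or.inl h)
  have hXx : A.valuation (px X) ≤ 1 := not_lt.mp fun h => hX (Or.inr h)
  have hTE := inE1_of_cyc hW hΔ hp2 hA hζ hpT hTσ
  have hTx : 1 < A.valuation (px T) := hTE.resolve_left hT0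
  have hψ := val_psi2_eq_one hW hΔ hodd hX hpX
  have hdiff := val_diff_sq hW h2 hX0 hXx hψ hT0 hTx
  have hbig := val_px_pow_le hW₁ hp.out hp2 hA hT0 hTx hpT
  have hz := val_zeta_le hp.out hp2 hζ hdiff hbig
  -- the family
  set z : ZMod p → L := fun j => px (X + j.val • T) with hzdef
  have hz0' : z 0 = px X := by simp [hzdef]
  have hz1' : z 1 = px (X + T) := by
    have : (1 : ZMod p).val = 1 := ZMod.val_one p
    simp [hzdef, this]
  have hzm' : z (-1) = px (X - T) := by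
    have h3 : (-1 : ZMod p).val • T = -T := by
      have h4 : ((-1 : ZMod p).val + 1) • T = 0 := by
        rw [nsmul_congr (m := (-1 : ZMod p).val + 1) (n := 0) hpT (by simp), zero_smul]
      rw [add_smul, one_smul] at h4
      exact eq_neg_of_add_eq_zero_left h4
    simp only [hzdef, h3, sub_eq_add_neg]
  have hσ : ∀ σ ∈ A.inertiaSubgroupIn ℚ, ∀ b c : ℕ, σ ζ = ζ ^ c → σ • X = X + b • T →
      ∀ j : ZMod p, σ (z j) = z ((b : ZMod p) + (c : ZMod p) * j) := by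
    intro σ hσ b c hc hb j
    simp only [hzdef]
    rw [← px_smul, smul_add_pt, smul_nsmul_pt, hb, hTσ σ hσ c hc, add_assoc, ← mul_smul,
      ← add_smul]
    congr 2
    apply nsmul_congr hpT
    push_cast
    rw [ZMod.natCast_zmod_val, ZMod.natCast_zmod_val]
    ring
  have hζσ : ∀ σ : L ≃ₐ[ℚ] L, ∃ c : ℕ, σ ζ = ζ ^ c := by
    intro σ
    have hz : (σ ζ) ^ p = 1 := by rw [← map_pow, hζ.pow_eq_one, map_one]
    obtain ⟨m, -, hm⟩ := hζ.eq_pow_of_pow_eq_one hz
    exact ⟨m, hm.symm⟩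
  obtain ⟨u, hu0, hun, huσ⟩ := resolvent (v := A.valuation) (K := ℚ) (z := z) hζ hp1 hp0
    (I := (A.inertiaSubgroupIn ℚ : Set (L ≃ₐ[ℚ] L)))
    (fun c hc hfix => Fermat.Agent.H12.exists_valuation_eq_zpow hp.out hA c hc hfix)
    (by rw [hz0']; exact hXx)
    (by rw [hz1', hzm']; exact hz)
    (by
      intro σ hσI
      obtain ⟨b, hb⟩ := hXσ σ hσI
      obtain ⟨c, hc⟩ := hζσ σ
      exact ⟨b, c, by rw [ez_eq hζ.pow_eq_one (n := c) rfl, hc], hσ σ hσI b c hc hb⟩)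
  refine ⟨u, hu0, hun, fun σ hσI b hb => ?_⟩
  obtain ⟨c, hc⟩ := hζσ σ
  rw [huσ σ hσI b c (by rw [ez_eq hζ.pow_eq_one (n := c) rfl, hc]) (hσ σ hσI b c hc hb),
    ez_eq hζ.pow_eq_one (n := b) rfl]

end main

end Fermat.Agent.H23.GR
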