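import Fermat.Agent.H23.GR.Good
import Fermat.Agent.H11N.N3Curve
import Fermat.Agent.Ell.TWcond

/-!
# Curves with good reduction at `p` are peu ramifiées
-/

set_option autoImplicit false
set_option linter.style.haveILetI false
set_option linter.unusedSectionVars false
set_option maxSynthPendingDepth 3

noncomputable section

namespace Fermat.Agent.H23.GR

open ModularCurve AlgebraicCurve Fermat.Agent.Ell Fermat.Agent.H12.LL Matrix
open WeierstrassCurve WeierstrassCurve.Affine WeierstrassCurve.Affine.Point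
open Fermat.Agent.EGal (VV rho)
open Fermat.Agent.H11N
open Fermat.Agent.H08 (InE1 px)

local notation "Qb" => AlgebraicClosure ℚ
local notation "Γq" => AlgebraicClosure ℚ ≃ₐ[ℚ] AlgebraicClosure ℚ

/-- a matrix which is the identity modulo a line acts on the line by its determinant -/
theorem mulVec_line {K : Type*} [Field K] (M : Matrix (Fin 2) (Fin 2) K) {v₁ : Fin 2 → K}
    (h : ∀ v, ∃ c : K, M *ᵥ v - v = c • v₁) : M *ᵥ v₁ = M.det • v₁ := by
  obtain ⟨c₀, h₀⟩ := h ![1, 0]
  obtain ⟨c₁, h₁⟩ := h ![0, 1]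
  have h00 := congrFun h₀ 0
  have h01 := congrFun h₀ 1
  have h10 := congrFun h₁ 0
  have h11 := congrFun h₁ 1
  simp only [Matrix.mulVec, dotProduct, Fin.sum_univ_two, Pi.sub_apply, Pi.smul_apply,
    smul_eq_mul, Matrix.cons_val_zero, Matrix.cons_val_one, mul_one, mul_zero, add_zero,
    zero_add, sub_zero] at h00 h01 h10 h11
  have e00 : M 0 0 = 1 + c₀ * v₁ 0 := by linear_combination h00
  have e11 : M 1 1 = 1 + c₁ * v₁ 1 := by linear_combination h11
  funext i
  fin_cases i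
  · simp only [Fin.zero_eta, Matrix.mulVec, dotProduct, Fin.sum_univ_two, Pi.smul_apply,
      smul_eq_mul, Matrix.det_fin_two]
    rw [e00, e11, h10, h01]
    ring
  · simp only [Fin.mk_one, Matrix.mulVec, dotProduct, Fin.sum_univ_two, Pi.smul_apply,
      smul_eq_mul, Matrix.det_fin_two]
    rw [e00, e11, h10, h01]
    ring

section Curve

variable {W : WeierstrassCurve ℤ} {p : ℕ} [hp : Fact p.Prime]

/-- **peu ramifiée** at a prime of good reduction -/
theorem peu_good (hΔ : W.Δ ≠ 0) (hirr : W.ModRepIsIrreducible p) (hp2 : p ≠ 2) {D : ℕ}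
    (hpD : p ∣ D) (hΔD : W.Δ.natAbs ∣ D) (hgood : ¬ (p : ℤ) ∣ W.Δ) {A : ValuationSubring Qb}
    (hA : A.LiesOverPrime p) {ζ : Qb} (hζ : IsPrimitiveRoot ζ p) :
    (mrepCurve hΔ hirr hp2 hpD hΔD).Peu A ζ := by
  classical
  haveI := isElliptic_WQ hΔ
  haveI : NeZero p := ⟨hp.out.ne_zero⟩
  intro v₁ v₂ hv₁ hI
  rw [mrepCurve_ρ] at hI ⊢
  set b' := redBasis (tB (p := p) hΔ) with hb'
  -- the identification with the torsion module
  let e : (Fin 2 → ZMod p) ≃ₗ[ZMod p] VV (WQ W) p := b'.equivFun.symm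
  have heσ : ∀ (σ : Γq) v, σ • e v = e (MR (tB (p := p) hΔ) (PadicInt.toZMod (p := p)) σ *ᵥ v) := by
    intro σ v
    apply e.symm.injective
    rw [LinearEquiv.symm_apply_apply]
    have h3 := LinearMap.toMatrix_mulVec_repr b' b' (rho (WQ W) p σ) (e v)
    have h4 : (⇑(b'.repr (e v)) : Fin 2 → ZMod p) = v := e.symm_apply_apply v
    rw [h4] at h3
    rw [MR_toZMod]
    exact h3.symm
  have hζσ : ∀ σ : Γq, ∃ c : ℕ, σ ζ = ζ ^ c := by
    intro σ
    have hz : (σ ζ) ^ p = 1 := by rw [← map_pow, hζ.pow_eq_one, map_one]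
    obtain ⟨m, -, hm⟩ := hζ.eq_pow_of_pow_eq_one hz
    exact ⟨m, hm.symm⟩
  have hζp : ∀ m n : ℕ, (m : ZMod p) = n → ζ ^ m = ζ ^ n := by
    intro m n h
    rw [ZMod.natCast_eq_natCast_iff] at h
    rw [pow_eq_pow_mod m hζ.pow_eq_one, h, ← pow_eq_pow_mod n hζ.pow_eq_one]
  -- inertia on the line
  have hline : ∀ σ ∈ A.inertiaSubgroupIn ℚ, ∀ b : ℕ, σ ζ = ζ ^ b →
      MR (tB (p := p) hΔ) (PadicInt.toZMod (p := p)) σ *ᵥ v₁ = (b : ZMod p) • v₁ := by
    intro σ hσ b hb
    rw [mulVec_line _ (hI σ hσ), det_MR_cyc hΔ hirr hζ hb]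
  -- the points
  let pt : (Fin 2 → ZMod p) → ((WQ W)⁄Qb : WeierstrassCurve.Affine Qb).Point := fun v => (e v : VV (WQ W) p)
  have hpt0 : ∀ v, pt v = 0 ↔ v = 0 := by
    intro v
    change ((e v : VV (WQ W) p) : ((WQ W)⁄Qb : WeierstrassCurve.Affine Qb).Point) = 0 ↔ v = 0
    rw [Submodule.coe_eq_zero, LinearEquiv.map_eq_zero_iff]
  have hptp : ∀ v, p • pt v = 0 := fun v => by
    have h := (e v).2
    rw [Submodule.mem_torsionBy_iff] at h
    rw [← natCast_zsmul]
    exact h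
  have hptadd : ∀ v w, pt (v + w) = pt v + pt w := fun v w => by
    change ((e (v + w) : VV (WQ W) p) : ((WQ W)⁄Qb : WeierstrassCurve.Affine Qb).Point) = _
    rw [map_add, Submodule.coe_add]
  have hptn : ∀ (b : ℕ) v, pt ((b : ZMod p) • v) = b • pt v := fun b v => by
    induction b with
    | zero => rw [Nat.cast_zero, zero_smul, zero_smul]; exact (hpt0 0).2 rfl
    | succ b ih => rw [Nat.cast_succ, add_smul, hptadd, ih, one_smul, succ_nsmul]
  have hptinj : ∀ v w, pt v = pt w → v = w := fun v w h => e.injective (Subtype.ext h)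
  have hptσ : ∀ (σ : Γq) v, σ • pt v =
      pt (MR (tB (p := p) hΔ) (PadicInt.toZMod (p := p)) σ *ᵥ v) := fun σ v =>
    congrArg Subtype.val (heσ σ v)
  have hΔ1 : A.valuation ((WQ W)⁄Qb).Δ = 1 := by
    rw [← map_WQ, WeierstrassCurve.map_Δ]; exact H09.val_intCast_eq_one hp.out hA hgood
  have hint : Fermat.Agent.H08.IsIntegralFor A.valuation ((WQ W)⁄Qb) :=
    H09.isIntegralFor_of_int (map_WQ W)
  by_cases hspan : ∃ k : ZMod p, v₂ = k • v₁
  · -- the split case
    obtain ⟨k, rfl⟩ := hspan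
    refine ⟨ζ ^ k.val, ?_, ?_, pow_ne_zero _ (hζ.ne_zero hp.out.ne_zero), ?_, ?_⟩
    · refine (A.valuation_le_one_iff _).1 ?_
      have h1 : (A.valuation (ζ ^ k.val)) ^ p = 1 := by
        rw [← map_pow, ← pow_mul, mul_comm, pow_mul, hζ.pow_eq_one, one_pow, map_one]
      exact ((pow_eq_one_iff_of_nonneg zero_le hp.out.ne_zero).1 h1).le
    · have h1 : (A.valuation (ζ ^ k.val)) ^ p = 1 := by
        rw [← map_pow, ← pow_mul, mul_comm, pow_mul, hζ.pow_eq_one, one_pow, map_one]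
      rw [← A.valuation_le_one_iff, map_inv₀,
        (pow_eq_one_iff_of_nonneg zero_le hp.out.ne_zero).1 h1, inv_one]
    · intro σ _
      rw [← pow_mul, mul_comm, pow_mul, hζ.pow_eq_one, one_pow, map_one]
    · intro σ hσ b hb
      obtain ⟨c, hc⟩ := hζσ σ
      rw [Matrix.mulVec_smul, hline σ hσ c hc, smul_smul, ← add_smul] at hb
      obtain ⟨i, hi⟩ : ∃ i, v₁ i ≠ 0 := by
        by_contra hcon
        push Not at hcon
        exact hv₁ (funext hcon)
      have h1 := congrFun hb i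
      simp only [Pi.smul_apply, smul_eq_mul] at h1
      have h2 := mul_right_cancel₀ hi h1
      rw [map_pow, hc, ← pow_mul, ← pow_add]
      apply hζp
      push_cast
      rw [ZMod.natCast_zmod_val]
      linear_combination h2
  · push Not at hspan
    have hspan2 : ∀ v : Fin 2 → ZMod p, ∃ a b : ℕ, v = (a : ZMod p) • v₁ + (b : ZMod p) • v₂ := by
      intro v
      obtain ⟨i, hi⟩ : ∃ i, v₁ i ≠ 0 := by
        by_contra hcon
        push Not at hcon
        exact hv₁ (funext hcon)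
      -- the determinant
      have hdet : v₁ 0 * v₂ 1 - v₁ 1 * v₂ 0 ≠ 0 := by
        intro h0
        apply hspan (v₂ i * (v₁ i)⁻¹)
        funext j
        rw [Pi.smul_apply, smul_eq_mul]
        fin_cases i <;> fin_cases j
        · simp only [Fin.zero_eta] at hi ⊢
          field_simp
        · simp only [Fin.zero_eta, Fin.mk_one] at hi ⊢
          field_simp
          linear_combination h0
        · simp only [Fin.zero_eta, Fin.mk_one] at hi ⊢
          field_simp
          linear_combination -h0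
        · simp only [Fin.mk_one] at hi ⊢
          field_simp
      set d := v₁ 0 * v₂ 1 - v₁ 1 * v₂ 0 with hd
      refine ⟨((v 0 * v₂ 1 - v 1 * v₂ 0) * d⁻¹).val, ((v₁ 0 * v 1 - v₁ 1 * v 0) * d⁻¹).val, ?_⟩
      rw [ZMod.natCast_zmod_val, ZMod.natCast_zmod_val]
      funext j
      simp only [Pi.add_apply, Pi.smul_apply, smul_eq_mul]
      fin_cases j
      · simp only [Fin.zero_eta]
        field_simp
        rw [hd]; ring
      · simp only [Fin.mk_one]
        field_simp
        rw [hd]; ring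
    have hT0 : pt v₁ ≠ 0 := fun h => hv₁ ((hpt0 v₁).1 h)
    have hTσ : ∀ σ ∈ A.inertiaSubgroupIn ℚ, ∀ b : ℕ, σ ζ = ζ ^ b → σ • pt v₁ = b • pt v₁ := by
      intro σ hσ b hb
      rw [hptσ, hline σ hσ b hb, hptn]
    have hv₂0 : v₂ ≠ 0 := by
      intro h
      exact hspan 0 (by rw [h, zero_smul])
    -- the ordinary case
    have hX : ¬ InE1 A.valuation (pt v₂) := by
      intro hX
      have hTE : InE1 A.valuation (pt v₁) := inE1_of_cyc hint hΔ1 hp2 hA hζ (hptp v₁) hTσ
      have hall : ∀ P : Pts (WQ W), P ≠ 0 → p • P = 0 → 1 < A.valuation (px P) := by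
        intro P hP0 hpP
        obtain ⟨v, hv⟩ := e.surjective ⟨P, by
          rw [Submodule.mem_torsionBy_iff]
          change (p : ℤ) • P = 0
          rw [natCast_zsmul]; exact hpP⟩
        have hv' : pt v = P := congrArg Subtype.val hv
        obtain ⟨a, b, rfl⟩ := hspan2 v
        rw [hptadd, hptn, hptn] at hv'
        have h1 : InE1 A.valuation P := by
          rw [← hv']
          exact Fermat.Agent.H08.InE1.add hint
            ((Fermat.Agent.H08.E1 A.valuation ((WQ W)⁄Qb) hint).nsmul_mem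
              (show pt v₁ ∈ Fermat.Agent.H08.E1 A.valuation ((WQ W)⁄Qb) hint from hTE) a)
            ((Fermat.Agent.H08.E1 A.valuation ((WQ W)⁄Qb) hint).nsmul_mem
              (show pt v₂ ∈ Fermat.Agent.H08.E1 A.valuation ((WQ W)⁄Qb) hint from hX) b)
        exact h1.resolve_left hP0
      obtain ⟨σ, hσ, hσP⟩ := exists_inertia_smul hΔ hgood hp2 hA hall hT0 (hptp v₁)
        (fun h => hv₂0 ((hpt0 v₂).1 h)) (hptp v₂)
      rw [hptσ] at hσP
      have h1 := hptinj _ _ hσP
      obtain ⟨c, hc⟩ := hI σ hσ v₁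
      rw [h1] at hc
      exact hspan (c + 1) (by rw [add_smul, one_smul, ← hc, sub_add_cancel])
    obtain ⟨u, hu0, ⟨n, hn⟩, hu2⟩ := exists_kummer_ord (W₀ := WQ W) (map_WQ W) hΔ1 hp2 hA hζ hT0
      (hptp v₁) (hptp v₂) hX hTσ (by
        intro σ hσ
        obtain ⟨c, hc⟩ := hI σ hσ v₂
        refine ⟨c.val, ?_⟩
        rw [hptσ, ← hptn, ← hptadd, ZMod.natCast_zmod_val, ← hc, add_sub_cancel])
    have hu1 : ∀ σ ∈ A.inertiaSubgroupIn ℚ, σ (u ^ p) = u ^ p := by
      intro σ hσ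
      obtain ⟨c, hc⟩ := hI σ hσ v₂
      have h1 : σ • pt v₂ = pt v₂ + c.val • pt v₁ := by
        rw [hptσ, ← hptn, ← hptadd, ZMod.natCast_zmod_val, ← hc, add_sub_cancel]
      rw [map_pow, hu2 σ hσ _ h1, mul_pow, ← pow_mul, mul_comm c.val, pow_mul, hζ.pow_eq_one,
        one_pow, one_mul]
    obtain ⟨w, hw1, hw2, hw3, hw4, hw5⟩ := normalize_unit hp.out.ne_zero hu0 hu1 hn
    refine ⟨w, hw1, hw2, hw3, hw4, fun σ hσ b hb => hw5 σ _ (hu2 σ hσ b ?_)⟩
    rw [hptσ, hb, hptadd, hptn]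

end Curve

end Fermat.Agent.H23.GR
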